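import Fermat.Agent.S16.NormInt.CuspZeroDef
import Fermat.Agent.S23.Esymm

/-!
# S16 toolkit, piece P5: coset representatives of `Γ₀(p)` in `SL(2,ℤ)`
Owner: helper67 (assigned by helper23).  Pure group theory.

`SL(2,ℤ) = Γ₀(p) ⊔ ⨆_{j < p} (S T^j)⁻¹ Γ₀(p)` (left cosets `h Γ₀(p)`, as in Mathlib's
`SlashInvariantForm.quotientFunc`, for which `quotientFunc f ⟦h⟧ = f ∣[k] h⁻¹`).

Proof.  For `g h : SL(2,ℤ)`: `⟦g⟧ = ⟦h⟧ ↔ g⁻¹ h ∈ Γ₀(p)`.
* injective: `(S T^i) (S T^j)⁻¹` has lower left entry `j - i`, in `Γ₀(p)` iff `p ∣ i - j`;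
  `(S T^j)⁻¹ = !![j, 1; -1, 0]` is never in `Γ₀(p)` (`p ≥ 2`).
* surjective: `(S T^j) h = !![-c, -d; a + j c, b + j d]`; if `p ∣ c` then `h ∈ Γ₀(p)`, otherwise
  choose `j ≡ -a / c mod p`.
-/

set_option autoImplicit false

namespace Fermat.Agent.S16Norm

open UpperHalfPlane ModularForm
open scoped MatrixGroups

open Fermat.Agent.S23

/-- The element of `𝒮ℒ` given by an element of `SL(2,ℤ)`. -/
noncomputable def cosetsSL (g : SL(2, ℤ)) : 𝒮ℒ :=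
  ⟨Matrix.SpecialLinearGroup.mapGL ℝ g, ⟨g, rfl⟩⟩

lemma cosetsSL_mul (g h : SL(2, ℤ)) : cosetsSL (g * h) = cosetsSL g * cosetsSL h := by
  apply Subtype.ext
  simp [cosetsSL]

lemma cosetsSL_inv (g : SL(2, ℤ)) : cosetsSL g⁻¹ = (cosetsSL g)⁻¹ := by
  apply Subtype.ext
  simp [cosetsSL]

lemma cosetsSL_one : cosetsSL 1 = 1 := by
  apply Subtype.ext
  simp [cosetsSL]

lemma cosetsSL_surjective (x : 𝒮ℒ) : ∃ g : SL(2, ℤ), cosetsSL g = x := by
  obtain ⟨x, g, rfl⟩ := x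
  exact ⟨g, rfl⟩

lemma cosetRep_eq_cosetsSL (j : ℤ) :
    cosetRep j = cosetsSL (ModularGroup.S * ModularGroup.T ^ j)⁻¹ := by
  apply Subtype.ext
  simp [cosetRep, cosetsSL]

lemma cosetsSL_mem_iff (p : ℕ) (g : SL(2, ℤ)) :
    cosetsSL g ∈ (G0 p).subgroupOf 𝒮ℒ ↔ ((g 1 0 : ℤ) : ZMod p) = 0 := by
  rw [Subgroup.mem_subgroupOf, ← CongruenceSubgroup.Gamma0_mem]
  show Matrix.SpecialLinearGroup.mapGL ℝ g ∈ G0 p ↔ _
  constructor
  · rintro ⟨h, hh, hgh⟩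
    have : h = g := Matrix.SpecialLinearGroup.mapGL_injective hgh
    exact this ▸ hh
  · intro hg
    exact ⟨g, hg, rfl⟩

/-- `⟦g⟧ = ⟦h⟧` iff the lower left entry of `g⁻¹ h` vanishes mod `p`. -/
lemma cosetsSL_mk_eq_iff (p : ℕ) (g h : SL(2, ℤ)) :
    (QuotientGroup.mk (cosetsSL g) : 𝒮ℒ ⧸ (G0 p).subgroupOf 𝒮ℒ) = QuotientGroup.mk (cosetsSL h) ↔
      (((g⁻¹ * h) 1 0 : ℤ) : ZMod p) = 0 := by
  rw [QuotientGroup.eq, ← cosetsSL_inv, ← cosetsSL_mul, cosetsSL_mem_iff]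

lemma cosets_ST_coe (j : ℤ) :
    ((ModularGroup.S * ModularGroup.T ^ j : SL(2, ℤ)) : Matrix (Fin 2) (Fin 2) ℤ) =
      !![0, -1; 1, j] := by
  rw [Matrix.SpecialLinearGroup.coe_mul, ModularGroup.coe_T_zpow, ModularGroup.coe_S]
  ext a b
  fin_cases a <;> fin_cases b <;> simp [Matrix.mul_apply, Fin.sum_univ_two]

lemma cosets_ST_inv_coe (j : ℤ) :
    (((ModularGroup.S * ModularGroup.T ^ j)⁻¹ : SL(2, ℤ)) : Matrix (Fin 2) (Fin 2) ℤ) =
      !![j, 1; -1, 0] := by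
  rw [Matrix.SpecialLinearGroup.coe_inv, cosets_ST_coe, Matrix.adjugate_fin_two]
  ext a b
  fin_cases a <;> fin_cases b <;> simp

/-- lower left entry of `(S T^j) h`. -/
lemma cosets_ST_mul_entry (j : ℤ) (h : SL(2, ℤ)) :
    ((ModularGroup.S * ModularGroup.T ^ j * h : SL(2, ℤ)) 1 0 : ℤ) = h 0 0 + j * h 1 0 := by
  have h1 : ((ModularGroup.S * ModularGroup.T ^ j * h : SL(2, ℤ)) : Matrix (Fin 2) (Fin 2) ℤ) =
      !![0, -1; 1, j] * (h : Matrix (Fin 2) (Fin 2) ℤ) := by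
    rw [Matrix.SpecialLinearGroup.coe_mul, cosets_ST_coe]
  show ((ModularGroup.S * ModularGroup.T ^ j * h : SL(2, ℤ)) :
    Matrix (Fin 2) (Fin 2) ℤ) 1 0 = _
  rw [h1]
  simp [Matrix.mul_apply, Fin.sum_univ_two]

/-- The `p + 1` cosets of `Γ₀(p)` in `SL(2,ℤ)`, `p` prime. -/
theorem exists_cosetEquiv (p : ℕ) [Fact p.Prime] :
    ∃ e : Option (Fin p) ≃ (𝒮ℒ ⧸ (G0 p).subgroupOf 𝒮ℒ),
      e none = QuotientGroup.mk 1 ∧
      ∀ j : Fin p, e (some j) = QuotientGroup.mk (cosetRep ((j : ℕ) : ℤ)) := by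
  have hp : p.Prime := Fact.out
  have hp2 : 2 ≤ p := hp.two_le
  -- the map
  let φ : Option (Fin p) → (𝒮ℒ ⧸ (G0 p).subgroupOf 𝒮ℒ) := fun o =>
    match o with
    | none => QuotientGroup.mk 1
    | some j => QuotientGroup.mk (cosetRep ((j : ℕ) : ℤ))
  have hnone : φ none = QuotientGroup.mk (cosetsSL 1) := by
    show (QuotientGroup.mk 1 : 𝒮ℒ ⧸ (G0 p).subgroupOf 𝒮ℒ) = _
    rw [cosetsSL_one]
  have hsome : ∀ j : Fin p, φ (some j) =
      QuotientGroup.mk (cosetsSL (ModularGroup.S * ModularGroup.T ^ ((j : ℕ) : ℤ))⁻¹) := by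
    intro j
    show (QuotientGroup.mk (cosetRep ((j : ℕ) : ℤ)) : 𝒮ℒ ⧸ (G0 p).subgroupOf 𝒮ℒ) = _
    rw [cosetRep_eq_cosetsSL]
  -- `-1 ≠ 0` in `ZMod p`
  have hone : ((1 : ℤ) : ZMod p) ≠ 0 := by
    haveI : Fact (1 < p) := ⟨hp.one_lt⟩
    simp
  have hns : ∀ j : Fin p, φ none ≠ φ (some j) := by
    intro j hj
    rw [hnone, hsome, cosetsSL_mk_eq_iff] at hj
    have h2 : (((1 : SL(2, ℤ))⁻¹ * (ModularGroup.S * ModularGroup.T ^ ((j : ℕ) : ℤ))⁻¹ :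
        SL(2, ℤ)) 1 0 : ℤ) = -1 := by
      rw [inv_one, one_mul]
      show (((ModularGroup.S * ModularGroup.T ^ ((j : ℕ) : ℤ))⁻¹ : SL(2, ℤ)) :
        Matrix (Fin 2) (Fin 2) ℤ) 1 0 = -1
      rw [cosets_ST_inv_coe]
      simp
    rw [h2] at hj
    apply hone
    simpa using hj
  have hss : ∀ i j : Fin p, φ (some i) = φ (some j) → i = j := by
    intro i j hij
    rw [hsome, hsome, cosetsSL_mk_eq_iff, inv_inv, cosets_ST_mul_entry, cosets_ST_inv_coe] at hij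
    simp only [Matrix.of_apply, Matrix.cons_val', Matrix.cons_val_zero, Matrix.cons_val_one,
      Matrix.cons_val_fin_one] at hij
    have h3 : (((j : ℕ) : ℤ) + ((i : ℕ) : ℤ) * (-1) : ℤ) = ((j : ℕ) : ℤ) - ((i : ℕ) : ℤ) := by ring
    rw [h3] at hij
    have h4 : ((p : ℕ) : ℤ) ∣ ((j : ℕ) : ℤ) - ((i : ℕ) : ℤ) :=
      (ZMod.intCast_zmod_eq_zero_iff_dvd _ p).mp hij
    have hi := i.isLt
    have hj := j.isLt
    have h5 : ((j : ℕ) : ℤ) - ((i : ℕ) : ℤ) = 0 := by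
      apply Int.eq_zero_of_abs_lt_dvd h4
      rw [abs_lt]
      constructor <;> omega
    apply Fin.ext
    omega
  have hinj : Function.Injective φ := by
    intro a b hab
    cases a with
    | none =>
      cases b with
      | none => rfl
      | some j => exact absurd hab (hns j)
    | some i =>
      cases b with
      | none => exact absurd hab.symm (hns i)
      | some j => rw [hss i j hab]
  have hsurj : Function.Surjective φ := by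
    intro q
    induction q using QuotientGroup.induction_on with
    | H x =>
      obtain ⟨h, rfl⟩ := cosetsSL_surjective x
      by_cases hc : ((h 1 0 : ℤ) : ZMod p) = 0
      · refine ⟨none, ?_⟩
        rw [hnone, cosetsSL_mk_eq_iff, inv_one, one_mul]
        exact hc
      · -- choose `j = -a / c`
        let jz : ZMod p := -((h 0 0 : ℤ) : ZMod p) / ((h 1 0 : ℤ) : ZMod p)
        haveI : NeZero p := ⟨hp.ne_zero⟩
        refine ⟨some ⟨jz.val, ZMod.val_lt jz⟩, ?_⟩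
        rw [hsome, cosetsSL_mk_eq_iff, inv_inv, cosets_ST_mul_entry]
        push_cast
        rw [ZMod.natCast_zmod_val]
        show ((h 0 0 : ℤ) : ZMod p) + -((h 0 0 : ℤ) : ZMod p) / ((h 1 0 : ℤ) : ZMod p) *
          ((h 1 0 : ℤ) : ZMod p) = 0
        rw [div_mul_cancel₀ _ hc]
        ring
  refine ⟨Equiv.ofBijective φ ⟨hinj, hsurj⟩, rfl, fun j => rfl⟩

end Fermat.Agent.S16Norm
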