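import Fermat.Agent.S16.NormInt.CuspZero
import Fermat.Agent.S16.NormInt.Cosets
import Fermat.Agent.S16.Defs

/-!
# S16 toolkit: the `q`-expansions of the dilated conjugates and of their symmetric functions
-/

set_option autoImplicit false

namespace Fermat.Agent.S16Norm

open Filter Topology Set Function ModularForm Complex
open UpperHalfPlane hiding I
open scoped Manifold MatrixGroups Real

open Fermat.Agent.S23 Fermat.Agent.S23Converse
open P2MW.S_ModularFormClass_qCoeff_heckeU.M4cP1W2

variable {p : ℕ} {k : ℤ}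

/-- `q`-expansion of a dilate, as a power series. -/
lemma qExpansion_dil (hp : p ≠ 0) {f : ℍ → ℂ} (hf : IsGood f) :
    qExpansion 1 (dil p f) = PowerSeries.expand p hp (qExpansion 1 f) := by
  ext n
  rw [coeff_dil hp hf, PowerSeries.coeff_expand]

/-- `q`-expansion of a translate by `j / p`, as a power series. -/
lemma qExpansion_tr_div (p : ℕ) (j : ℕ) {f : ℍ → ℂ} (hf : IsGood f) :
    qExpansion 1 (tr ((j : ℝ) / p) f) =
      PowerSeries.rescale (Fermat.Agent.S16.zetaP p ^ j) (qExpansion 1 f) := by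
  ext n
  rw [coeff_tr _ hf, PowerSeries.coeff_rescale, mul_comm]
  congr 2
  rw [Fermat.Agent.S16.zetaP, ← Complex.exp_nat_mul]
  congr 1
  push_cast
  ring

lemma quotientFunc_one [NeZero p] (F : ModularForm (G0 p) k) :
    SlashInvariantForm.quotientFunc F
      (QuotientGroup.mk 1 : 𝒮ℒ ⧸ (G0 p).subgroupOf 𝒮ℒ) = ⇑F := by
  have h : SlashInvariantForm.quotientFunc F
      (QuotientGroup.mk 1 : 𝒮ℒ ⧸ (G0 p).subgroupOf 𝒮ℒ) =
      (⇑F : ℍ → ℂ) ∣[k] (((1 : 𝒮ℒ) : GL (Fin 2) ℝ))⁻¹ := rfl
  rw [h]
  simp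

lemma quotientFunc_cosetRep [NeZero p] (F : ModularForm (G0 p) k) (j : ℤ) :
    SlashInvariantForm.quotientFunc F
      (QuotientGroup.mk (cosetRep j) : 𝒮ℒ ⧸ (G0 p).subgroupOf 𝒮ℒ) =
      (⇑F : ℍ → ℂ) ∣[k] (ModularGroup.S * ModularGroup.T ^ j : SL(2, ℤ)) := by
  have h : SlashInvariantForm.quotientFunc F
      (QuotientGroup.mk (cosetRep j) : 𝒮ℒ ⧸ (G0 p).subgroupOf 𝒮ℒ) =
      (⇑F : ℍ → ℂ) ∣[k] ((cosetRep j : 𝒮ℒ) : GL (Fin 2) ℝ)⁻¹ := rfl
  rw [h, cosetRep_val_inv]
  rfl

/-- The `q`-expansion of the dilated conjugate indexed by `x : Option (Fin p)`. -/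
noncomputable def conjExp (p : ℕ) (hp : p ≠ 0) (A B : PowerSeries ℂ) : Option (Fin p) → PowerSeries ℂ
  | none => PowerSeries.expand p hp A
  | some j => PowerSeries.rescale (Fermat.Agent.S16.zetaP p ^ (j : ℕ)) B

lemma conjSeries_eq (p : ℕ) (hp : p ≠ 0) (A B : PowerSeries ℂ) :
    Fermat.Agent.S16.conjSeries p hp A B =
      (Finset.univ : Finset (Option (Fin p))).val.map (conjExp p hp A B) := by
  rw [Fermat.Agent.S16.conjSeries]
  have h1 : (Finset.univ : Finset (Option (Fin p))) =
      insert none ((Finset.univ : Finset (Fin p)).map Function.Embedding.some) := by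
    ext x
    cases x <;> simp
  rw [h1, Finset.insert_val_of_notMem (by simp), Multiset.map_cons, Finset.map_val,
    Multiset.map_map]
  congr 1
  have h := congrArg Finset.val (Fin.map_valEmbedding_univ (n := p))
  rw [Finset.map_val] at h
  have h2 : Multiset.range p = (Finset.univ : Finset (Fin p)).val.map ⇑(Fin.valEmbedding) := by
    rw [h]
    show _ = (Finset.Iio p).val
    rw [← Finset.range_val]
    congr 1
    ext x
    simp
  rw [h2, Multiset.map_map]
  rfl

/-! ### Products of good functions -/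

lemma isGood_prod {ι : Type*} (s : Finset ι) {F : ι → ℍ → ℂ} (hF : ∀ i ∈ s, IsGood (F i)) :
    IsGood (∏ i ∈ s, F i) := by
  classical
  induction s using Finset.induction_on with
  | empty => simpa using IsGood.one
  | insert i s hi ih =>
    rw [Finset.prod_insert hi]
    exact (hF i (Finset.mem_insert_self i s)).mul
      (ih fun j hj => hF j (Finset.mem_insert_of_mem hj))

lemma qExpansion_prod {ι : Type*} (s : Finset ι) {F : ι → ℍ → ℂ} (hF : ∀ i ∈ s, IsGood (F i)) :
    qExpansion 1 (∏ i ∈ s, F i) = ∏ i ∈ s, qExpansion 1 (F i) := by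
  classical
  induction s using Finset.induction_on with
  | empty => simpa using UpperHalfPlane.qExpansion_one 1
  | insert i s hi ih =>
    rw [Finset.prod_insert hi, Finset.prod_insert hi,
      (hF i (Finset.mem_insert_self i s)).qExpansion_mul
        (isGood_prod s fun j hj => hF j (Finset.mem_insert_of_mem hj)),
      ih fun j hj => hF j (Finset.mem_insert_of_mem hj)]

/-- `q`-expansion of an elementary symmetric function of good functions. -/
lemma qExpansion_esymm {ι : Type*} [Fintype ι] [DecidableEq ι] (D : ι → ℍ → ℂ)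
    (hD : ∀ x, IsGood (D x)) (i : ℕ) :
    qExpansion 1 (∑ s ∈ Finset.powersetCard i (Finset.univ : Finset ι), ∏ x ∈ s, D x) =
      ((Finset.univ : Finset ι).val.map fun x => qExpansion 1 (D x)).esymm i := by
  rw [IsGood.qExpansion_sum _ fun s _ => isGood_prod s fun x _ => hD x, Finset.esymm_map_val]
  exact Finset.sum_congr rfl fun s _ => qExpansion_prod s fun x _ => hD x

/-! ### The dilated conjugates -/

section main

variable [Fact p.Prime]

/-- The dilated conjugate of `F` indexed by `x : Option (Fin p)` is good and has the expected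
`q`-expansion. -/
theorem dil_quotientFunc_spec (F : ModularForm (G0 p) k)
    (e : Option (Fin p) ≃ (𝒮ℒ ⧸ (G0 p).subgroupOf 𝒮ℒ))
    (he0 : e none = QuotientGroup.mk 1)
    (hej : ∀ j : Fin p, e (some j) = QuotientGroup.mk (cosetRep ((j : ℕ) : ℤ)))
    (x : Option (Fin p)) :
    haveI : NeZero p := ⟨(Fact.out : p.Prime).ne_zero⟩
    IsGood (dil p (SlashInvariantForm.quotientFunc F (e x))) ∧
      qExpansion 1 (dil p (SlashInvariantForm.quotientFunc F (e x))) =
        conjExp p (Fact.out : p.Prime).ne_zero (qExpansion 1 F)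
          (qExpansion 1 (cuspZero p k F)) x := by
  haveI : NeZero p := ⟨(Fact.out : p.Prime).ne_zero⟩
  have hp : p ≠ 0 := (Fact.out : p.Prime).ne_zero
  have hF : IsGood (⇑F : ℍ → ℂ) := isGood_of_modularFormClass (one_mem_strictPeriods_G0 p) F
  cases x with
  | none =>
    rw [he0, quotientFunc_one]
    exact ⟨isGood_dil hp hF, qExpansion_dil hp hF⟩
  | some j =>
    rw [hej, quotientFunc_cosetRep, dil_slash_S_mul_T_zpow hp]
    have hc := isGood_cuspZero F
    have hcast : (((j : ℕ) : ℤ) : ℝ) = ((j : ℕ) : ℝ) := by push_cast; rfl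
    rw [hcast]
    exact ⟨isGood_tr _ hc, qExpansion_tr_div p j hc⟩

/-- The `q`-expansion of the dilate of the `i`-th elementary symmetric function of the
`SL(2,ℤ)`-translates of `F` is the `i`-th elementary symmetric function of the `p + 1`
conjugate series. -/
theorem qExpansion_dil_esymmFun (F : ModularForm (G0 p) k) (i : ℕ) :
    haveI : NeZero p := ⟨(Fact.out : p.Prime).ne_zero⟩
    qExpansion 1 (dil p (esymmFun p F i)) =
      (Fermat.Agent.S16.conjSeries p (Fact.out : p.Prime).ne_zero (qExpansion 1 F)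
        (qExpansion 1 (cuspZero p k F))).esymm i := by
  classical
  haveI : NeZero p := ⟨(Fact.out : p.Prime).ne_zero⟩
  have hp : p ≠ 0 := (Fact.out : p.Prime).ne_zero
  obtain ⟨e, he0, hej⟩ := exists_cosetEquiv p
  letI := Fintype.ofFinite (𝒮ℒ ⧸ (G0 p).subgroupOf 𝒮ℒ)
  have hspec := dil_quotientFunc_spec F e he0 hej
  -- the dilate of the symmetric function
  have h1 : dil p (esymmFun p F i) =
      ∑ s ∈ Finset.powersetCard i (Finset.univ : Finset (𝒮ℒ ⧸ (G0 p).subgroupOf 𝒮ℒ)),
        ∏ q ∈ s, dil p (SlashInvariantForm.quotientFunc F q) := by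
    funext τ
    simp only [dil_apply, esymmFun, Finset.sum_apply, Finset.prod_apply]
  have hgood : ∀ q : 𝒮ℒ ⧸ (G0 p).subgroupOf 𝒮ℒ,
      IsGood (dil p (SlashInvariantForm.quotientFunc F q)) := fun q => by
    have := (hspec (e.symm q)).1
    rwa [Equiv.apply_symm_apply] at this
  rw [h1, qExpansion_esymm _ hgood, conjSeries_eq]
  congr 1
  -- reindex along `e`
  have h2 : (Finset.univ : Finset (𝒮ℒ ⧸ (G0 p).subgroupOf 𝒮ℒ)).val =
      (Finset.univ : Finset (Option (Fin p))).val.map e := by
    rw [← Finset.map_univ_equiv e, Finset.map_val]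
    rfl
  rw [h2, Multiset.map_map]
  exact Multiset.map_congr rfl fun x _ => (hspec x).2

end main

end Fermat.Agent.S16Norm
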