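import Fermat.Agent.S16.NormInt.CuspZeroDef

/-!
# S16 toolkit, piece P4: the Fricke involution
Owner: helper77 (assigned by helper23).

`cuspZero p k f = fun z => (f ∣[k] S) (p z)`, so `cuspZero p k F = p^(1-k) • F ∣[k] w_p` with
`w_p = S * heckeDiagMatrix p = !![0, -1; p, 0]`, which normalises `Γ₀(p)`:
`w_p * !![a, b; c, d] = !![d, -c/p; -p b, a] * w_p`.

* `exists_fricke`: `cuspZero p k F` is a modular form on `Γ₀(p)`;
* `cuspZero_cuspZero`: `cuspZero p k (cuspZero p k f) = p^(-k) • f` for even `k`.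
-/

set_option autoImplicit false

namespace Fermat.Agent.S16Norm

open UpperHalfPlane ModularForm
open scoped MatrixGroups
open Matrix.SpecialLinearGroup ConjAct Pointwise

open Fermat.Agent.S23

/-- The Fricke matrix `w_p = S * diag(p, 1) = !![0, -1; p, 0]`. -/
noncomputable def frickeMat (p : ℕ) : GL (Fin 2) ℝ :=
  mapGL ℝ ModularGroup.S * heckeDiagMatrix p

theorem frickeMat_val {p : ℕ} (hp : p ≠ 0) :
    ((frickeMat p : GL (Fin 2) ℝ) : Matrix (Fin 2) (Fin 2) ℝ) = !![0, -1; (p : ℝ), 0] := by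
  have hS : ((mapGL ℝ ModularGroup.S : GL (Fin 2) ℝ) : Matrix (Fin 2) (Fin 2) ℝ) =
      !![0, -1; 1, 0] := by
    ext i j
    have h : (mapGL ℝ ModularGroup.S : GL (Fin 2) ℝ) i j = ((ModularGroup.S i j : ℤ) : ℝ) := by
      simp
    rw [h, ModularGroup.coe_S]
    fin_cases i <;> fin_cases j <;> simp
  rw [frickeMat, Units.val_mul, val_heckeDiagMatrix hp, hS]
  ext i j
  fin_cases i <;> fin_cases j <;> simp [Matrix.mul_apply, Fin.sum_univ_two]

/-- `w_p * g = g' * w_p` with `g' ∈ Γ₀(p)` for `g ∈ Γ₀(p)`. -/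
theorem frickeMat_mul_comm {p : ℕ} (hp : p ≠ 0) (g : SL(2, ℤ)) (e : ℤ)
    (he : g 1 0 = p * e) :
    ∃ g' : SL(2, ℤ), g' ∈ CongruenceSubgroup.Gamma0 p ∧
      frickeMat p * mapGL ℝ g = mapGL ℝ g' * frickeMat p := by
  have hdet : g 0 0 * g 1 1 - g 0 1 * g 1 0 = 1 := by
    have h := g.det_coe
    rwa [Matrix.det_fin_two] at h
  have hdet' : (!![g 1 1, -e; -((p : ℤ) * g 0 1), g 0 0] : Matrix (Fin 2) (Fin 2) ℤ).det = 1 := by
    rw [Matrix.det_fin_two_of]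
    linear_combination hdet + (g 0 1) * he
  let g' : SL(2, ℤ) := ⟨!![g 1 1, -e; -((p : ℤ) * g 0 1), g 0 0], hdet'⟩
  have hg'10 : g' 1 0 = -((p : ℤ) * g 0 1) := rfl
  have hg'00 : g' 0 0 = g 1 1 := rfl
  have hg'01 : g' 0 1 = -e := rfl
  have hg'11 : g' 1 1 = g 0 0 := rfl
  refine ⟨g', ?_, ?_⟩
  · rw [CongruenceSubgroup.Gamma0_mem, hg'10]
    simp
  · have heR : ((g 1 0 : ℤ) : ℝ) = (p : ℝ) * (e : ℝ) := by exact_mod_cast he
    apply Units.ext
    rw [Units.val_mul, Units.val_mul, frickeMat_val hp]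
    ext i j
    fin_cases i <;> fin_cases j <;>
      simp [Matrix.mul_apply, Fin.sum_univ_two, hg'10, hg'00, hg'01, hg'11]
    all_goals first
      | linear_combination heR
      | linear_combination -heR
      | ring1

/-- `Γ₀(p) ⊆ w_p⁻¹ Γ₀(p) w_p`. -/
theorem G0_le_conj_frickeMat (p : ℕ) [NeZero p] :
    G0 p ≤ toConjAct (frickeMat p)⁻¹ • G0 p := by
  rintro γ ⟨g, hg, rfl⟩
  rw [map_inv, Subgroup.mem_inv_pointwise_smul_iff, toConjAct_smul]
  have hdvd : (p : ℤ) ∣ g 1 0 := by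
    rw [SetLike.mem_coe, CongruenceSubgroup.Gamma0_mem] at hg
    exact (ZMod.intCast_zmod_eq_zero_iff_dvd _ p).mp hg
  obtain ⟨e, he⟩ := hdvd
  obtain ⟨g', hg'mem, hg'⟩ := frickeMat_mul_comm (NeZero.ne p) g e he
  rw [hg', mul_inv_cancel_right]
  exact ⟨g', hg'mem, rfl⟩

/-- `F ∣[k] w_p` as a modular form on `Γ₀(p)`. -/
noncomputable def frickeAux (p : ℕ) [NeZero p] (k : ℤ) (F : ModularForm (G0 p) k) :
    ModularForm (G0 p) k where
  toFun := ⇑F ∣[k] frickeMat p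
  slash_action_eq' γ hγ :=
    (ModularForm.translate F (frickeMat p)).slash_action_eq' γ (G0_le_conj_frickeMat p hγ)
  holo' := (ModularForm.translate F (frickeMat p)).holo'
  bdd_at_cusps' hc :=
    (ModularForm.translate F (frickeMat p)).bdd_at_cusps' (hc.mono (G0_le_conj_frickeMat p))

theorem frickeAux_coe (p : ℕ) [NeZero p] (k : ℤ) (F : ModularForm (G0 p) k) :
    ⇑(frickeAux p k F) = ⇑F ∣[k] frickeMat p := rfl

/-- `f ∣[k] w_p = p^(k-1) • cuspZero p k f`. -/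
theorem slash_frickeMat {p : ℕ} (hp : p ≠ 0) (k : ℤ) (f : ℍ → ℂ) :
    f ∣[k] frickeMat p = ((p : ℂ) ^ (k - 1)) • cuspZero p k f := by
  funext τ
  rw [frickeMat, SlashAction.slash_mul, slash_heckeDiagMatrix_apply k hp, Pi.smul_apply,
    smul_eq_mul, cuspZero_apply]
  rfl

/-- `F° = cuspZero p k F` is again a modular form on `Γ₀(p)`. -/
theorem exists_fricke (p : ℕ) [NeZero p] (k : ℤ) (F : ModularForm (G0 p) k) :
    ∃ F' : ModularForm (G0 p) k, (⇑F' : ℍ → ℂ) = cuspZero p k F := by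
  have hp : (p : ℂ) ≠ 0 := by exact_mod_cast NeZero.ne p
  refine ⟨((((p : ℂ) ^ (k - 1))⁻¹ : ℂ)) • frickeAux p k F, ?_⟩
  have h1 : ⇑(((((p : ℂ) ^ (k - 1))⁻¹ : ℂ)) • frickeAux p k F) =
      ((((p : ℂ) ^ (k - 1))⁻¹ : ℂ)) • ⇑(frickeAux p k F) := rfl
  rw [h1, frickeAux_coe, slash_frickeMat (NeZero.ne p), smul_smul,
    inv_mul_cancel₀ (zpow_ne_zero _ hp), one_smul]

/-- `(F°)° = p^(-k) F` for even `k` (for every function `f`). -/
theorem cuspZero_cuspZero (p : ℕ) (hp : p ≠ 0) (k : ℤ) (hk : Even k) (f : ℍ → ℂ) :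
    cuspZero p k (cuspZero p k f) = ((p : ℂ) ^ k)⁻¹ • f := by
  have hpC : (p : ℂ) ≠ 0 := by exact_mod_cast hp
  funext τ
  have hτ : (τ : ℂ) ≠ 0 := ne_zero τ
  -- the point `S • (p • τ)`
  have hcoe1 : ∀ z : ℍ, ((ModularGroup.S • (heckeDiagMatrix p • z) : ℍ) : ℂ) =
      (-((p : ℂ) * (z : ℂ)))⁻¹ := by
    intro z
    rw [modular_S_smul, coe_mk, coe_heckeDiagMatrix_smul hp]
  have hback : ModularGroup.S • (heckeDiagMatrix p •
      (ModularGroup.S • (heckeDiagMatrix p • τ))) = τ := by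
    apply UpperHalfPlane.ext
    rw [hcoe1, hcoe1]
    field_simp
  have hformula : ∀ (g : ℍ → ℂ) (z : ℍ), cuspZero p k g z =
      g (ModularGroup.S • (heckeDiagMatrix p • z)) * ((p : ℂ) * (z : ℂ)) ^ (-k) := by
    intro g z
    rw [cuspZero_apply, SL_slash_apply, ModularGroup.denom_S, coe_heckeDiagMatrix_smul hp]
  rw [hformula, hformula, hback, hcoe1, Pi.smul_apply, smul_eq_mul, mul_assoc, ← mul_zpow]
  have : (p : ℂ) * (-((p : ℂ) * (τ : ℂ)))⁻¹ * ((p : ℂ) * (τ : ℂ)) = -(p : ℂ) := by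
    field_simp
  rw [this, zpow_neg, hk.neg_zpow, mul_comm]

end Fermat.Agent.S16Norm
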