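import Fermat.Agent.S16.NormInt.CuspZeroDef
import Fermat.Agent.S23.Esymm
import Fermat.Agent.S23.MF

/-!
# S16 toolkit: the expansion at the cusp `0` is good; translates `F ∣[k] S T^j`
-/

set_option autoImplicit false

namespace Fermat.Agent.S16Norm

open Filter Topology Set Function ModularForm Complex
open UpperHalfPlane hiding I
open scoped Manifold MatrixGroups Real

open Fermat.Agent.S23 Fermat.Agent.S23Converse
open P2MW.S_ModularFormClass_qCoeff_heckeU.M4cP1W2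

variable {p : ℕ} {k : ℤ}

/-- Slash by `T^j` is translation by `j`. -/
lemma slash_T_zpow_apply (f : ℍ → ℂ) (k : ℤ) (j : ℤ) (τ : ℍ) :
    (f ∣[k] (ModularGroup.T ^ j : SL(2, ℤ))) τ = f ((j : ℝ) +ᵥ τ) := by
  rw [SL_slash_apply, modular_T_zpow_smul]
  have : denom ((ModularGroup.T ^ j : SL(2, ℤ)) : GL (Fin 2) ℝ) τ = 1 := by
    rw [ModularGroup.denom_apply]
    have h10 : (ModularGroup.T ^ j : SL(2, ℤ)) 1 0 = 0 := by
      rw [ModularGroup.coe_T_zpow]; rfl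
    have h11 : (ModularGroup.T ^ j : SL(2, ℤ)) 1 1 = 1 := by
      rw [ModularGroup.coe_T_zpow]; rfl
    rw [h10, h11]
    simp
  rw [this]
  simp

lemma slash_S_mul_T_zpow_apply (f : ℍ → ℂ) (k : ℤ) (j : ℤ) (τ : ℍ) :
    (f ∣[k] (ModularGroup.S * ModularGroup.T ^ j : SL(2, ℤ))) τ =
      (f ∣[k] ModularGroup.S) ((j : ℝ) +ᵥ τ) := by
  rw [SlashAction.slash_mul, slash_T_zpow_apply]

/-- `S T^(p m) S⁻¹ ∈ Γ₀(p)`. -/
lemma S_T_zpow_S_inv_mem (p : ℕ) (m : ℤ) :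
    ModularGroup.S * ModularGroup.T ^ ((p : ℤ) * m) * ModularGroup.S⁻¹ ∈
      CongruenceSubgroup.Gamma0 p := by
  rw [CongruenceSubgroup.Gamma0_mem]
  have h : (ModularGroup.S * ModularGroup.T ^ ((p : ℤ) * m) * ModularGroup.S⁻¹ : SL(2, ℤ)) 1 0 =
      -((p : ℤ) * m) := by
    simp [ModularGroup.coe_T_zpow, ModularGroup.S, Matrix.SpecialLinearGroup.coe_inv,
      Matrix.mul_apply, Fin.sum_univ_two, Matrix.adjugate_fin_two]
  rw [h]
  push_cast
  simp

/-- Forms on `Γ₀(p)` are invariant under `Γ₀(p)` (for the `SL(2,ℤ)` slash action). -/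
lemma slash_Gamma0 (F : ModularForm (G0 p) k) {γ : SL(2, ℤ)}
    (hγ : γ ∈ CongruenceSubgroup.Gamma0 p) : (⇑F : ℍ → ℂ) ∣[k] γ = ⇑F :=
  SlashInvariantForm.slash_action_eqn F _ ⟨γ, hγ, rfl⟩

/-- `F ∣[k] S` has period `p`. -/
lemma slash_S_vadd (F : ModularForm (G0 p) k) (m : ℤ) (τ : ℍ) :
    ((⇑F : ℍ → ℂ) ∣[k] ModularGroup.S) ((((p : ℤ) * m : ℤ) : ℝ) +ᵥ τ) =
      ((⇑F : ℍ → ℂ) ∣[k] ModularGroup.S) τ := by
  rw [← slash_S_mul_T_zpow_apply]
  have h : (ModularGroup.S * ModularGroup.T ^ ((p : ℤ) * m) : SL(2, ℤ)) =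
      (ModularGroup.S * ModularGroup.T ^ ((p : ℤ) * m) * ModularGroup.S⁻¹) * ModularGroup.S := by
    group
  rw [h, SlashAction.slash_mul, slash_Gamma0 F (S_T_zpow_S_inv_mem p m)]

lemma heckeDiagMatrix_smul_vadd (hp : p ≠ 0) (r : ℝ) (τ : ℍ) :
    heckeDiagMatrix p • (r +ᵥ τ) = ((p : ℝ) * r) +ᵥ (heckeDiagMatrix p • τ) := by
  apply UpperHalfPlane.ext
  rw [coe_heckeDiagMatrix_smul hp, coe_vadd, coe_vadd, coe_heckeDiagMatrix_smul hp]
  push_cast
  ring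

/-- `F ∣[k] S` is bounded at `i∞`. -/
lemma isBounded_slash_S [NeZero p] (F : ModularForm (G0 p) k) :
    IsBoundedAtImInfty ((⇑F : ℍ → ℂ) ∣[k] ModularGroup.S) := by
  have h1 : IsCusp (((1 : GL (Fin 2) ℝ)) • OnePoint.infty) 𝒮ℒ := by
    rw [one_smul]
    exact (𝒮ℒ).isCusp_of_mem_strictPeriods one_pos _root_.one_mem_strictPeriods_SL
  have h := esymm_isBoundedAtImInfty_quotientFunc_slash p F h1
    (QuotientGroup.mk (cosetRep 0))
  have h2 : SlashInvariantForm.quotientFunc F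
      (QuotientGroup.mk (cosetRep 0) : 𝒮ℒ ⧸ (G0 p).subgroupOf 𝒮ℒ) =
      (⇑F : ℍ → ℂ) ∣[k] ((cosetRep 0 : 𝒮ℒ) : GL (Fin 2) ℝ)⁻¹ := rfl
  rw [h2, cosetRep_val_inv, SlashAction.slash_one, zpow_zero, mul_one] at h
  exact h

/-- `F° = cuspZero p k F` is good. -/
theorem isGood_cuspZero [NeZero p] (F : ModularForm (G0 p) k) : IsGood (cuspZero p k F) where
  periodic := periodic_comp_ofComplex_of_vadd fun τ => by
    simp only [cuspZero, dil_apply]
    rw [heckeDiagMatrix_smul_vadd (NeZero.ne p), mul_one]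
    have := slash_S_vadd F 1 (heckeDiagMatrix p • τ)
    simpa using this
  holo := by
    unfold cuspZero
    rw [dil_eq_slash (NeZero.ne p)]
    exact ((ModularFormClass.holo F).slash k _).slash 1 _
  bdd := by
    unfold cuspZero
    rw [dil_eq_slash (NeZero.ne p)]
    exact (isBounded_slash_S F).slash 1 (heckeDiagMatrix_one_zero p)

/-- The dilated translate `F ∣[k] S T^j` is a real translate of `F°`. -/
theorem dil_slash_S_mul_T_zpow (hp : p ≠ 0) (f : ℍ → ℂ) (k : ℤ) (j : ℤ) :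
    dil p (f ∣[k] (ModularGroup.S * ModularGroup.T ^ j : SL(2, ℤ))) =
      tr ((j : ℝ) / p) (cuspZero p k f) := by
  funext τ
  simp only [dil_apply, tr_apply, cuspZero]
  rw [slash_S_mul_T_zpow_apply, heckeDiagMatrix_smul_vadd hp]
  have : (p : ℝ) ≠ 0 := by exact_mod_cast hp
  rw [mul_div_cancel₀ _ this]

/-! ### Additivity etc. of `cuspZero` -/

lemma cuspZero_add (p : ℕ) (k : ℤ) (f g : ℍ → ℂ) :
    cuspZero p k (f + g) = cuspZero p k f + cuspZero p k g := by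
  funext τ
  simp [cuspZero, SlashAction.add_slash]

lemma cuspZero_smul (p : ℕ) (k : ℤ) (c : ℂ) (f : ℍ → ℂ) :
    cuspZero p k (c • f) = c • cuspZero p k f := by
  funext τ
  simp [cuspZero]

lemma cuspZero_mul (p : ℕ) (k₁ k₂ : ℤ) (f g : ℍ → ℂ) :
    cuspZero p (k₁ + k₂) (f * g) = cuspZero p k₁ f * cuspZero p k₂ g := by
  funext τ
  simp only [cuspZero, dil_apply, Pi.mul_apply]
  rw [ModularForm.mul_slash_SL2]
  rfl

/-- On level one forms `E° = E(p z)`. -/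
lemma cuspZero_levelOne (p : ℕ) (k : ℤ) (E : ModularForm 𝒮ℒ k) :
    cuspZero p k E = dil p E := by
  unfold cuspZero
  congr 1
  exact SlashInvariantForm.slash_action_eqn E _ ⟨ModularGroup.S, rfl⟩

end Fermat.Agent.S16Norm
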