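import Fermat.Agent.S16.NormInt.Shift
import Fermat.Agent.S23.Defs

/-!
# S16 toolkit: the expansion at the cusp `0` (definitions)

For `f : ℍ → ℂ` put `cuspZero p k f = fun z => (f ∣[k] S) (p z)`, i.e.
`F°(z) = (p z)^(-k) F(-1/(p z))`.
-/

set_option autoImplicit false

namespace Fermat.Agent.S16Norm

open Filter Topology Set Function ModularForm Complex
open UpperHalfPlane hiding I
open scoped Manifold MatrixGroups Real

open Fermat.Agent.S23 Fermat.Agent.S23Converse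

/-- `F°(z) = (f ∣[k] S) (p z) = (p z)^(-k) f(-1/(p z))`. -/
noncomputable def cuspZero (p : ℕ) (k : ℤ) (f : ℍ → ℂ) : ℍ → ℂ :=
  dil p (f ∣[k] ModularGroup.S)

lemma cuspZero_apply (p : ℕ) (k : ℤ) (f : ℍ → ℂ) (τ : ℍ) :
    cuspZero p k f τ = (f ∣[k] ModularGroup.S) (heckeDiagMatrix p • τ) := rfl

/-- The element `(S T^j)⁻¹` of `𝒮ℒ` (the image of `SL(2,ℤ)` in `GL(2,ℝ)`); the corresponding
translate of `f` is `f ∣[k] (S T^j)`. -/
noncomputable def cosetRep (j : ℤ) : 𝒮ℒ :=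
  ⟨(Matrix.SpecialLinearGroup.mapGL ℝ (ModularGroup.S * ModularGroup.T ^ j))⁻¹,
    ⟨(ModularGroup.S * ModularGroup.T ^ j)⁻¹, by rw [map_inv]⟩⟩

lemma cosetRep_val_inv (j : ℤ) :
    ((cosetRep j : 𝒮ℒ) : GL (Fin 2) ℝ)⁻¹ =
      Matrix.SpecialLinearGroup.mapGL ℝ (ModularGroup.S * ModularGroup.T ^ j) := by
  simp [cosetRep]

end Fermat.Agent.S16Norm
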