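import Mathlib
import Fermat.Prelude.Def_ModularForm_HeckeOperator
import Fermat.Agent.S23.ConverseQExp

/-!
# S16 toolkit: good functions with coefficients in a subring `R ⊆ ℂ`

`RGood R f`: `f : ℍ → ℂ` is `1`-periodic, holomorphic, bounded at `i∞` and all its
`q`-expansion coefficients lie in the subring `R` of `ℂ`.
The class is closed under ring operations, under real translations `τ ↦ r + τ`
(coefficients are multiplied by `exp (2πi r) ^ n`), and the dilation `τ ↦ p τ`
only spreads out the coefficients.
-/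

set_option autoImplicit false

namespace Fermat.Agent.S16Norm

open Filter Topology Set Function UpperHalfPlane ModularForm Complex
open scoped Manifold MatrixGroups Real

open Fermat.Agent.S23Converse

/-- `f` is good (`1`-periodic, holomorphic, bounded at `i∞`) with `q`-expansion in `R`. -/
def RGood (R : Subring ℂ) (f : ℍ → ℂ) : Prop :=
  IsGood f ∧ ∀ n : ℕ, (qExpansion 1 f).coeff n ∈ R

namespace RGood

variable {R : Subring ℂ} {f g : ℍ → ℂ}

lemma isGood (hf : RGood R f) : IsGood f := hf.1

lemma coeff_mem (hf : RGood R f) (n : ℕ) : (qExpansion 1 f).coeff n ∈ R := hf.2 n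

lemma zero : RGood R (0 : ℍ → ℂ) :=
  ⟨IsGood.zero, fun n => by rw [UpperHalfPlane.qExpansion_zero]; simp⟩

lemma one : RGood R (1 : ℍ → ℂ) :=
  ⟨IsGood.one, fun n => by
    rw [UpperHalfPlane.qExpansion_one, PowerSeries.coeff_one]
    split_ifs
    · exact R.one_mem
    · exact R.zero_mem⟩

lemma add (hf : RGood R f) (hg : RGood R g) : RGood R (f + g) :=
  ⟨hf.1.add hg.1, fun n => by
    rw [hf.1.qExpansion_add hg.1, map_add]
    exact R.add_mem (hf.2 n) (hg.2 n)⟩

lemma mul (hf : RGood R f) (hg : RGood R g) : RGood R (f * g) :=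
  ⟨hf.1.mul hg.1, fun n => by
    rw [hf.1.qExpansion_mul hg.1, PowerSeries.coeff_mul]
    exact R.sum_mem fun x _ => R.mul_mem (hf.2 _) (hg.2 _)⟩

lemma pow (hf : RGood R f) (n : ℕ) : RGood R (f ^ n) := by
  induction n with
  | zero => simpa using one
  | succ n ih => rw [pow_succ]; exact ih.mul hf

lemma sum {ι : Type*} (s : Finset ι) {F : ι → ℍ → ℂ} (hF : ∀ i ∈ s, RGood R (F i)) :
    RGood R (∑ i ∈ s, F i) := by
  classical
  induction s using Finset.induction_on with
  | empty => simpa using zero
  | insert i s hi ih =>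
    rw [Finset.sum_insert hi]
    exact (hF i (Finset.mem_insert_self i s)).add
      (ih fun j hj => hF j (Finset.mem_insert_of_mem hj))

lemma prod {ι : Type*} (s : Finset ι) {F : ι → ℍ → ℂ} (hF : ∀ i ∈ s, RGood R (F i)) :
    RGood R (∏ i ∈ s, F i) := by
  classical
  induction s using Finset.induction_on with
  | empty => simpa using one
  | insert i s hi ih =>
    rw [Finset.prod_insert hi]
    exact (hF i (Finset.mem_insert_self i s)).mul
      (ih fun j hj => hF j (Finset.mem_insert_of_mem hj))

lemma congr {f' : ℍ → ℂ} (hf : RGood R f) (h : f' = f) : RGood R f' := h ▸ hf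

end RGood

/-- A good function is the sum of its `q`-expansion. -/
lemma IsGood_hasSum {f : ℍ → ℂ} (hf : IsGood f) (τ : ℍ) :
    HasSum (fun m : ℕ => (qExpansion 1 f).coeff m • Periodic.qParam 1 τ ^ m) (f τ) :=
  hasSum_qExpansion one_pos hf.periodic hf.holo hf.bdd τ

/-- Uniqueness of the coefficients of a good function. -/
lemma IsGood_coeff_unique {f : ℍ → ℂ} (hf : IsGood f) {c : ℕ → ℂ}
    (hs : ∀ τ : ℍ, HasSum (fun m : ℕ => c m • Periodic.qParam 1 τ ^ m) (f τ)) (m : ℕ) :
    (qExpansion 1 f).coeff m = c m :=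
  (UpperHalfPlane.qExpansion_coeff_unique (ContinuousMap.mk f hf.holo.continuous) one_pos
    hf.analyticAt hs m).symm

end Fermat.Agent.S16Norm
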