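import Fermat.Agent.S16.NormInt.Good
import Fermat.Prelude.Sol.S_ModularFormClass_qCoeff_heckeU

/-!
# S16 toolkit: real translations and dilations of good functions
-/

set_option autoImplicit false

namespace Fermat.Agent.S16Norm

open Filter Topology Set Function ModularForm Complex
open UpperHalfPlane hiding I
open scoped Manifold MatrixGroups Real

open Fermat.Agent.S23Converse
open P2MW.S_ModularFormClass_qCoeff_heckeU.M4cP1W2

/-- Translation of a function on `ℍ` by a real number. -/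
noncomputable def tr (r : ℝ) (f : ℍ → ℂ) : ℍ → ℂ := fun τ => f (r +ᵥ τ)

@[simp] lemma tr_apply (r : ℝ) (f : ℍ → ℂ) (τ : ℍ) : tr r f τ = f (r +ᵥ τ) := rfl

/-- Dilation of a function on `ℍ` by a positive integer. -/
noncomputable def dil (p : ℕ) (f : ℍ → ℂ) : ℍ → ℂ := fun τ => f (heckeDiagMatrix p • τ)

@[simp] lemma dil_apply (p : ℕ) (f : ℍ → ℂ) (τ : ℍ) : dil p f τ = f (heckeDiagMatrix p • τ) := rfl

lemma isGood_apply_vadd_one {f : ℍ → ℂ} (hf : IsGood f) (τ : ℍ) : f ((1 : ℝ) +ᵥ τ) = f τ :=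
  apply_eq_of_coe_eq_add_nat hf.periodic 1 (by rw [coe_vadd]; push_cast; ring)

lemma vadd_vadd_comm' (r s : ℝ) (τ : ℍ) : r +ᵥ (s +ᵥ τ) = s +ᵥ (r +ᵥ τ) := by
  apply UpperHalfPlane.ext
  simp only [coe_vadd]
  ring

lemma mdiff_tr (r : ℝ) {f : ℍ → ℂ} (hf : MDiff f) : MDiff (tr r f) := by
  rw [UpperHalfPlane.mdifferentiable_iff] at hf ⊢
  intro z hz
  have hz' : 0 < (z + (r : ℂ)).im := by simpa using hz
  have h1 : DifferentiableWithinAt ℂ (f ∘ ofComplex) {w : ℂ | 0 < w.im} (z + r) := hf _ hz'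
  have h2 : DifferentiableAt ℂ (f ∘ ofComplex) (z + r) :=
    h1.differentiableAt ((isOpen_lt continuous_const Complex.continuous_im).mem_nhds hz')
  have h3 : DifferentiableAt ℂ (fun w : ℂ => (f ∘ ofComplex) (w + r)) z :=
    DifferentiableAt.comp (g := f ∘ ofComplex) (f := fun w : ℂ => w + (r : ℂ)) z h2
      (differentiableAt_id.add_const _)
  refine (h3.differentiableWithinAt).congr_of_eventuallyEq ?_ ?_
  · filter_upwards [self_mem_nhdsWithin] with w hw
    have hw' : 0 < (w + (r : ℂ)).im := by simpa using hw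
    simp only [comp_apply, tr_apply, ofComplex_apply_of_im_pos hw, ofComplex_apply_of_im_pos hw']
    congr 1
    apply UpperHalfPlane.ext
    simp [coe_vadd, add_comm]
  · simp only [comp_apply, tr_apply, ofComplex_apply_of_im_pos hz, ofComplex_apply_of_im_pos hz']
    congr 1
    apply UpperHalfPlane.ext
    simp [coe_vadd, add_comm]

lemma isGood_tr (r : ℝ) {f : ℍ → ℂ} (hf : IsGood f) : IsGood (tr r f) where
  periodic := periodic_comp_ofComplex_of_vadd fun τ => by
    simp only [tr_apply]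
    rw [vadd_vadd_comm', isGood_apply_vadd_one hf]
  holo := mdiff_tr r hf.holo
  bdd := by
    have h := hf.bdd
    rw [UpperHalfPlane.isBoundedAtImInfty_iff] at h ⊢
    obtain ⟨M, A, hMA⟩ := h
    refine ⟨M, A, fun z hz => ?_⟩
    simp only [tr_apply]
    exact hMA _ (by simpa using hz)

lemma qParam_vadd (r : ℝ) (τ : ℍ) :
    Periodic.qParam 1 ((r +ᵥ τ : ℍ) : ℂ) = exp (2 * π * I * r) * Periodic.qParam 1 (τ : ℂ) := by
  rw [qParam_one, qParam_one, coe_vadd, ← Complex.exp_add]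
  congr 1
  ring

/-- Coefficients of a translate. -/
lemma coeff_tr (r : ℝ) {f : ℍ → ℂ} (hf : IsGood f) (n : ℕ) :
    (qExpansion 1 (tr r f)).coeff n = (qExpansion 1 f).coeff n * exp (2 * π * I * r) ^ n := by
  refine IsGood_coeff_unique (isGood_tr r hf)
    (c := fun n => (qExpansion 1 f).coeff n * exp (2 * π * I * r) ^ n) (fun τ => ?_) n
  have h := IsGood_hasSum hf (r +ᵥ τ)
  rw [qParam_vadd] at h
  simp only [tr_apply]
  convert h using 2 with m
  simp only [smul_eq_mul, mul_pow]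
  ring

lemma rGood_tr {R : Subring ℂ} (r : ℝ) (hr : exp (2 * π * I * r) ∈ R) {f : ℍ → ℂ}
    (hf : RGood R f) : RGood R (tr r f) :=
  ⟨isGood_tr r hf.1, fun n => by
    rw [coeff_tr r hf.1]
    exact R.mul_mem (hf.2 n) (R.pow_mem hr n)⟩

/-! ### Dilations -/

lemma dil_eq_slash {p : ℕ} (hp : p ≠ 0) (f : ℍ → ℂ) :
    dil p f = f ∣[(1 : ℤ)] heckeDiagMatrix p := by
  funext τ
  rw [slash_heckeDiagMatrix_apply 1 hp]
  simp

lemma isGood_dil {p : ℕ} (hp : p ≠ 0) {f : ℍ → ℂ} (hf : IsGood f) : IsGood (dil p f) where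
  periodic := periodic_comp_ofComplex_of_vadd fun τ => by
    simp only [dil_apply]
    exact apply_eq_of_coe_eq_add_nat hf.periodic p (coe_heckeDiagMatrix_smul_vadd hp τ)
  holo := by
    rw [dil_eq_slash hp]
    exact hf.holo.slash 1 _
  bdd := by
    rw [dil_eq_slash hp]
    exact hf.bdd.slash 1 (heckeDiagMatrix_one_zero p)

/-- Coefficients of a dilate. -/
lemma coeff_dil {p : ℕ} (hp : p ≠ 0) {f : ℍ → ℂ} (hf : IsGood f) (n : ℕ) :
    (qExpansion 1 (dil p f)).coeff n = if p ∣ n then (qExpansion 1 f).coeff (n / p) else 0 := by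
  refine IsGood_coeff_unique (isGood_dil hp hf)
    (c := fun n => if p ∣ n then (qExpansion 1 f).coeff (n / p) else 0) (fun τ => ?_) n
  have h := hasSum_diag hp hf.periodic hf.holo hf.bdd 1 τ
  simp only [dil_apply]
  convert h using 2 with m
  · split_ifs
    · simp [ModularFormClass.qCoeff]
    · simp
  · simp

lemma coeff_dil_mul {p : ℕ} (hp : p ≠ 0) {f : ℍ → ℂ} (hf : IsGood f) (n : ℕ) :
    (qExpansion 1 (dil p f)).coeff (p * n) = (qExpansion 1 f).coeff n := by
  rw [coeff_dil hp hf, if_pos (dvd_mul_right p n), Nat.mul_div_cancel_left _ (Nat.pos_of_ne_zero hp)]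

lemma rGood_dil {R : Subring ℂ} {p : ℕ} (hp : p ≠ 0) {f : ℍ → ℂ} (hf : RGood R f) :
    RGood R (dil p f) :=
  ⟨isGood_dil hp hf.1, fun n => by
    rw [coeff_dil hp hf.1]
    split_ifs
    · exact hf.2 _
    · exact R.zero_mem⟩

/-- If `f` is good and its dilate has coefficients in `R`, so has `f`. -/
lemma rGood_of_dil {R : Subring ℂ} {p : ℕ} (hp : p ≠ 0) {f : ℍ → ℂ} (hf : IsGood f)
    (h : RGood R (dil p f)) : RGood R f :=
  ⟨hf, fun n => by
    rw [← coeff_dil_mul hp hf]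
    exact h.2 _⟩

end Fermat.Agent.S16Norm
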